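/-
Fermat/Agent/Jac/RiemannCover82/Step.lean  (helper82, JAC programme, brick A2')

**One step of the covering lemma.**  Over a field `K`, for a line bundle `L` on a two-chart curve
whose charts are finite projective over the line, and a `K`-rational point `m` of the first chart
with invertible ideal(s): if some global section of `L` does not vanish at `m`, then
`L(-m) := downTwist c L (IdealPair.ofChart0 c m)` (helper39's `LineOps39`) is again a line bundle,
`h⁰(L(-m)) + 1 = h⁰(L)` and `h¹(L(-m)) = h¹(L)`.

This glues helper39's down-twist (`LineOps39`) to helper4's numerical statement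
(`Riemann4.Modification.IsModAt.finrank_of_exists_not_mem`) and to the finiteness results of
helper42 (`P1CohH1.finite_H1`) and helper76 (`P1CohH0.exists_finite_free_cover`).
-/
import Fermat.Agent.Jac.LineOps39.Point
import Fermat.Agent.Jac.LineOps39.OverLine
import Fermat.Agent.Jac.Riemann4.Modification
import Fermat.Agent.Jac.P1CohH1
import Fermat.Agent.Jac.P1CohH0

set_option autoImplicit false
set_option linter.unusedSectionVars false
set_option linter.style.haveILetI false

universe u

namespace Fermat.Agent.Jac.RiemannCover82.Step

open Fermat.Agent.Jac Fermat.Agent.Jac.LineOps39 Fermat.Agent.Jac.Riemann4.Modification Module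

variable {K R0 R1 R01 : Type u} [Field K] [CommRing R0] [CommRing R1] [CommRing R01]
  [Algebra K R0] [Algebra K R1] [Algebra K R01] [Algebra R0 R01] [Algebra R1 R01]
  [IsScalarTower K R0 R01] [IsScalarTower K R1 R01]

/-! ### Rational points of the first chart -/

/-- At a `K`-rational ideal `m` of a `K`-algebra `R`, every element is congruent to a constant. -/
theorem exists_const_sub_mem {R : Type*} [CommRing R] [Algebra K R] (m : Ideal R)
    (hK : Function.Surjective (algebraMap K (R ⧸ m))) (x : R) :
    ∃ a : K, x - algebraMap K R a ∈ m := by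
  obtain ⟨a, ha⟩ := hK (Ideal.Quotient.mk m x)
  refine ⟨a, ?_⟩
  rw [← Ideal.Quotient.eq, ← ha, IsScalarTower.algebraMap_apply K R (R ⧸ m)]
  rfl

/-- A *good point* of the first chart of `c`: a `K`-rational maximal ideal `m` of `R0` which is an
invertible module, as is its closure ideal on the second chart.  (For the base change to `K` of a
smooth curve over an algebraically closed field `k`, every `k`-point of the first chart gives a
good point.) -/
structure GoodPoint (c : TwoChart K R0 R1 R01) (m : Ideal R0) : Prop where
  isMaximal : m.IsMaximal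
  rational : Function.Surjective (algebraMap K (R0 ⧸ m))
  inv0 : Module.Invertible R0 m
  inv1 : Module.Invertible R1 (IdealPair.ofChart0 c m).I1

variable (c : TwoChart K R0 R1 R01)

/-- helper39's down-twist at a chart-0 ideal `m` modulo which `t` is a constant is an elementary
modification along `m` in the sense of helper4. -/
theorem isModAt_downTwistHom (L : QC2 K R0 R1 R01) (m : Ideal R0) (a : K)
    (ha : c.t - algebraMap K R0 a ∈ m) :
    IsModAt m (downTwistHom c L (IdealPair.ofChart0 c m)) where
  inj0 := subHom_f0_injective c L _
  inj1 := subHom_f1_injective c L _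
  inj01 := subHom_f01_injective c L _
  range0 := Submodule.range_subtype _
  cart1 := by
    intro x hx
    have hx' : L.r1 x ∈ ((IdealPair.ofChart0 c m).subPair c L).S01 := by
      obtain ⟨y, hy⟩ := hx
      rw [← hy]
      exact y.2
    have hinj := (restrictTo_ofChart0_bijective_r1 c L m a ha).1
    have h0 : (restrictTo c L (IdealPair.ofChart0 c m)).r1
        (((IdealPair.ofChart0 c m).subPair c L).S1.mkQ x) = 0 := by
      show ((IdealPair.ofChart0 c m).subPair c L).S01.mkQ (L.r1 x) = 0
      rw [Submodule.mkQ_apply, Submodule.Quotient.mk_eq_zero]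
      exact hx'
    have h00 : (restrictTo c L (IdealPair.ofChart0 c m)).r1
        (((IdealPair.ofChart0 c m).subPair c L).S1.mkQ x) =
        (restrictTo c L (IdealPair.ofChart0 c m)).r1 0 := by
      rw [h0]
      exact (map_zero _).symm
    have h1 : ((IdealPair.ofChart0 c m).subPair c L).S1.mkQ x = 0 := hinj h00
    rw [Submodule.mkQ_apply, Submodule.Quotient.mk_eq_zero] at h1
    exact ⟨⟨x, h1⟩, rfl⟩

/-! ### Finite-dimensionality of the cohomology of line bundles over a field -/

/-- Over a field, `H¹` of a line bundle is finite-dimensional. -/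
theorem finiteDimensional_H1 (hc : c.FiniteProjOverLine) {L : QC2 K R0 R1 R01} (hL : L.IsLine) :
    FiniteDimensional K L.H1 :=
  P1CohH1.finite_H1 c L (finiteOverLine_of_isLine c hc hL)

/-- Over a field, `H⁰` of a line bundle is finite-dimensional. -/
theorem finiteDimensional_H0 (hc : c.FiniteProjOverLine) {L : QC2 K R0 R1 R01} (hL : L.IsLine) :
    FiniteDimensional K L.H0 := by
  obtain ⟨n, π, hπ⟩ := P1CohH0.exists_finite_free_cover c L (finiteOverLine_of_isLine c hc hL)
    (projOverLine_of_isLine c hc hL)
  have hle : L.H0 ≤ LinearMap.range π := by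
    intro x hx
    exact hπ x hx
  haveI : FiniteDimensional K (LinearMap.range π) := inferInstance
  exact Submodule.finiteDimensional_of_le hle

/-! ### The step -/

/-- **One step of the covering lemma**: twisting down at a good point where some global section
does not vanish drops `h⁰` by one and keeps `h¹`. -/
theorem downTwist_step (hc : c.FiniteProjOverLine) {L : QC2 K R0 R1 R01} (hL : L.IsLine)
    {m : Ideal R0} (hm : GoodPoint c m)
    (hσ : ∃ σ : L.H0, σ.1.1 ∉ m • (⊤ : Submodule R0 L.N0)) :
    (downTwist c L (IdealPair.ofChart0 c m)).IsLine ∧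
      finrank K (downTwist c L (IdealPair.ofChart0 c m)).H0 + 1 = finrank K L.H0 ∧
      finrank K (downTwist c L (IdealPair.ofChart0 c m)).H1 = finrank K L.H1 := by
  have hL' : (downTwist c L (IdealPair.ofChart0 c m)).IsLine :=
    isLine_downTwist c hL _ hm.inv0 hm.inv1
  refine ⟨hL', ?_⟩
  obtain ⟨a, ha⟩ := exists_const_sub_mem m hm.rational c.t
  have hmod := isModAt_downTwistHom c L m a ha
  haveI := finiteDimensional_H0 c hc hL
  haveI := finiteDimensional_H1 c hc hL
  haveI := finiteDimensional_H1 c hc hL'
  haveI := hm.isMaximal
  haveI := hL.inv0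
  have h1 : finrank K (L.N0 ⧸ LinearMap.range (downTwistHom c L (IdealPair.ofChart0 c m)).f0)
      = 1 := by
    have hr : LinearMap.range (downTwistHom c L (IdealPair.ofChart0 c m)).f0
        = (m • ⊤ : Submodule R0 L.N0) := hmod.range0
    have e : (L.N0 ⧸ LinearMap.range (downTwistHom c L (IdealPair.ofChart0 c m)).f0) ≃ₗ[K]
        (L.N0 ⧸ (m • ⊤ : Submodule R0 L.N0)) :=
      (Submodule.quotEquivOfEq _ _ hr).restrictScalars K
    rw [e.finrank_eq]
    exact finrank_quot_smul_top_eq_one m hm.rational
  exact hmod.finrank_of_exists_not_mem c h1 hσ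

end Fermat.Agent.Jac.RiemannCover82.Step
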