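/-
Fermat/Agent/Jac/RiemannCover82/Cover.lean  (helper82, JAC programme, brick A2')

**The covering lemma, down-twist form** (blueprint Claim 7).

Let `K` be a field, `c : TwoChart K R0 R1 R01` a two-chart curve whose charts are finite projective
over the line, and `Pts` an infinite set of *good points* of the first chart (`Step.GoodPoint`)
such that a nonzero element of an invertible `R0`-module vanishes at only finitely many points of
`Pts`.  Then

* `exists_points` : for finitely many line bundles `L i` with `H¹(L i) = 0` and the same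
  `h⁰(L i) = n` there is a list `l` of `n` points of `Pts` such that
  `H⁰ = H¹ = 0` for every iterated down-twist `L i (-∑ l)` *simultaneously*;
* `exists_twist_points` : for finitely many line bundles `N i` with the same Euler characteristic
  after twisting, there are `m : ℕ` and a list `l` of points of `Pts` with `H⁰ = H¹ = 0` for
  `N i (m • D∞ - ∑ l)` simultaneously.

Proof: pick nonzero sections `τ i`; each vanishes at finitely many points of `Pts`; choose a point
of `Pts` where no `τ i` vanishes and apply `Step.downTwist_step`; repeat `n` times.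
-/
import Fermat.Agent.Jac.RiemannCover82.Step
import Fermat.Agent.Jac.P1CohChi.Vanish

set_option autoImplicit false
set_option linter.unusedSectionVars false
set_option linter.style.haveILetI false

universe u

namespace Fermat.Agent.Jac.RiemannCover82.Cover

open Fermat.Agent.Jac Fermat.Agent.Jac.LineOps39 Fermat.Agent.Jac.RiemannCover82.Step Module
open Polynomial

section General

variable {A R0 R1 R01 : Type u} [CommRing A] [CommRing R0] [CommRing R1] [CommRing R01]
  [Algebra A R0] [Algebra A R1] [Algebra A R01] [Algebra R0 R01] [Algebra R1 R01]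
  [IsScalarTower A R0 R01] [IsScalarTower A R1 R01]

/-- Iterated down-twist `L(-m₁ - m₂ - ⋯)` of a two-chart module at a list of ideals of the first
chart (the head of the list is removed first). -/
noncomputable def downTwistList (c : TwoChart A R0 R1 R01) :
    QC2 A R0 R1 R01 → List (Ideal R0) → QC2 A R0 R1 R01
  | L, [] => L
  | L, m :: l => downTwistList c (downTwist c L (IdealPair.ofChart0 c m)) l

@[simp] theorem downTwistList_nil (c : TwoChart A R0 R1 R01) (L : QC2 A R0 R1 R01) :
    downTwistList c L [] = L := rfl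

@[simp] theorem downTwistList_cons (c : TwoChart A R0 R1 R01) (L : QC2 A R0 R1 R01) (m : Ideal R0)
    (l : List (Ideal R0)) :
    downTwistList c L (m :: l) = downTwistList c (downTwist c L (IdealPair.ofChart0 c m)) l := rfl

theorem downTwistList_append (c : TwoChart A R0 R1 R01) (L : QC2 A R0 R1 R01)
    (l l' : List (Ideal R0)) :
    downTwistList c L (l ++ l') = downTwistList c (downTwistList c L l) l' := by
  induction l generalizing L with
  | nil => rfl
  | cons m l ih => exact ih _

/-- If `s` acts injectively on `N1` then the restriction map `r1` is injective. -/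
theorem r1_injective_of_isSMulRegular (c : TwoChart A R0 R1 R01) (L : QC2 A R0 R1 R01)
    (hs : IsSMulRegular L.N1 c.s) : Function.Injective L.r1 := by
  haveI := isLocalizedModule_r1 c L
  rw [injective_iff_map_eq_zero]
  intro x hx
  obtain ⟨⟨_, n, rfl⟩, hn⟩ :=
    (IsLocalizedModule.eq_zero_iff (Submonoid.powers c.s) L.r1).1 hx
  have hn' : c.s ^ n • x = 0 := hn
  exact (hs.pow n) (by
    show c.s ^ n • x = c.s ^ n • (0 : L.N1)
    rw [hn', smul_zero])

/-- A global section with zero component on the first chart is zero, when `r1` is injective. -/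
theorem eq_zero_of_fst_eq_zero (L : QC2 A R0 R1 R01) (hr1 : Function.Injective L.r1)
    (σ : L.H0) (h : σ.1.1 = 0) : σ = 0 := by
  have hσ : L.d σ.1 = 0 := σ.2
  rw [LineOps39.d_apply, h, map_zero, zero_sub, neg_eq_zero] at hσ
  have h1 : σ.1.2 = 0 := hr1 (by rw [hσ, map_zero])
  exact Subtype.ext (Prod.ext h h1)

end General

section Field

variable {K R0 R1 R01 : Type u} [Field K] [CommRing R0] [CommRing R1] [CommRing R01]
  [Algebra K R0] [Algebra K R1] [Algebra K R01] [Algebra R0 R01] [Algebra R1 R01]
  [IsScalarTower K R0 R01] [IsScalarTower K R1 R01]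

variable (c : TwoChart K R0 R1 R01)

/-- For a line bundle on a curve with charts projective over the line, `r1` is injective. -/
theorem r1_injective (hc : c.FiniteProjOverLine) {L : QC2 K R0 R1 R01} (hL : L.IsLine) :
    Function.Injective L.r1 := by
  haveI := (projOverLine_of_isLine c hc hL).proj1
  refine r1_injective_of_isSMulRegular c L ?_
  have h : IsSMulRegular (Module.AEval K L.N1 c.s) (X : K[X]) :=
    Module.Flat.isSMulRegular_of_nonZeroDivisors X_mem_nonzeroDivisors
  intro x y hxy
  apply (Module.AEval.of K L.N1 c.s).injective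
  apply h
  change (X : K[X]) • Module.AEval.of K L.N1 c.s x = (X : K[X]) • Module.AEval.of K L.N1 c.s y
  rw [Module.AEval.X_smul_of, Module.AEval.X_smul_of]
  exact congrArg _ hxy

/-- A nonzero global section of a line bundle has nonzero component on the first chart. -/
theorem fst_ne_zero (hc : c.FiniteProjOverLine) {L : QC2 K R0 R1 R01} (hL : L.IsLine)
    {σ : L.H0} (hσ : σ ≠ 0) : σ.1.1 ≠ 0 :=
  fun h => hσ (eq_zero_of_fst_eq_zero L (r1_injective c hc hL) σ h)

/-- The hypothesis "sections have finitely many zeros among the points `Pts`". -/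
def FiniteZeros (Pts : Set (Ideal R0)) : Prop :=
  ∀ (N : Type u) [AddCommGroup N] [Module R0 N] [Module.Invertible R0 N] (x : N), x ≠ 0 →
    {m ∈ Pts | x ∈ m • (⊤ : Submodule R0 N)}.Finite

/-- **Point choosing** (R4): given finitely many line bundles with nonzero `H⁰`, there is a point
of `Pts` and, for each of them, a global section not vanishing at that point. -/
theorem exists_point_not_vanishing (hc : c.FiniteProjOverLine) {Pts : Set (Ideal R0)}
    (hPts : Pts.Infinite) (hz : FiniteZeros Pts) {ι : Type*} [Finite ι]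
    (L : ι → QC2 K R0 R1 R01) (hL : ∀ i, (L i).IsLine) (hpos : ∀ i, 0 < finrank K (L i).H0) :
    ∃ m ∈ Pts, ∀ i, ∃ σ : (L i).H0, σ.1.1 ∉ m • (⊤ : Submodule R0 (L i).N0) := by
  have hex : ∀ i, ∃ σ : (L i).H0, σ ≠ 0 := by
    intro i
    haveI := finiteDimensional_H0 c hc (hL i)
    exact (Module.finrank_pos_iff_exists_ne_zero (R := K)).1 (hpos i)
  choose σ hσ using hex
  have hfin : ∀ i, {m ∈ Pts | (σ i).1.1 ∈ m • (⊤ : Submodule R0 (L i).N0)}.Finite := by
    intro i
    haveI := (hL i).inv0
    exact hz (L i).N0 (σ i).1.1 (fst_ne_zero c hc (hL i) (hσ i))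
  have hU : (⋃ i, {m ∈ Pts | (σ i).1.1 ∈ m • (⊤ : Submodule R0 (L i).N0)}).Finite :=
    Set.finite_iUnion hfin
  obtain ⟨m, hm, hmU⟩ := (hPts.sdiff hU).nonempty
  refine ⟨m, hm, fun i => ⟨σ i, fun hmem => hmU ?_⟩⟩
  exact Set.mem_iUnion.2 ⟨i, hm, hmem⟩

/-- **Covering lemma, core form** (R5): finitely many line bundles with `H¹ = 0` and the same
`h⁰ = n` become simultaneously acyclic (`H⁰ = H¹ = 0`) after twisting down at a suitable list of
`n` points of `Pts`. -/
theorem exists_points (hc : c.FiniteProjOverLine) {Pts : Set (Ideal R0)} (hPts : Pts.Infinite)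
    (hgood : ∀ m ∈ Pts, GoodPoint c m) (hz : FiniteZeros Pts) {ι : Type*} [Finite ι] (n : ℕ) :
    ∀ (L : ι → QC2 K R0 R1 R01), (∀ i, (L i).IsLine) → (∀ i, Subsingleton (L i).H1) →
      (∀ i, finrank K (L i).H0 = n) →
      ∃ l : List (Ideal R0), l.length = n ∧ (∀ m ∈ l, m ∈ Pts) ∧
        ∀ i, (downTwistList c (L i) l).IsLine ∧ (downTwistList c (L i) l).H0 = ⊥ ∧
          Subsingleton (downTwistList c (L i) l).H1 := by
  induction n with
  | zero =>
    intro L hL hH1 hn
    refine ⟨[], rfl, by simp, fun i => ⟨hL i, ?_, hH1 i⟩⟩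
    haveI := finiteDimensional_H0 c hc (hL i)
    show (L i).H0 = ⊥
    exact Submodule.finrank_eq_zero.1 (hn i)
  | succ n ih =>
    intro L hL hH1 hn
    obtain ⟨m, hm, hσ⟩ := exists_point_not_vanishing c hc hPts hz L hL
      (fun i => by rw [hn i]; exact Nat.succ_pos n)
    have hstep := fun i => downTwist_step c hc (hL i) (hgood m hm) (hσ i)
    have hH1' : ∀ i, Subsingleton (downTwist c (L i) (IdealPair.ofChart0 c m)).H1 := by
      intro i
      haveI := finiteDimensional_H1 c hc (hstep i).1
      haveI := hH1 i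
      have h0 : finrank K (downTwist c (L i) (IdealPair.ofChart0 c m)).H1 = 0 := by
        rw [(hstep i).2.2]
        exact Module.finrank_zero_of_subsingleton
      exact Module.finrank_zero_iff.1 h0
    have hn' : ∀ i, finrank K (downTwist c (L i) (IdealPair.ofChart0 c m)).H0 = n := by
      intro i
      have := (hstep i).2.1
      rw [hn i] at this
      omega
    obtain ⟨l, hl, hlP, hres⟩ := ih (fun i => downTwist c (L i) (IdealPair.ofChart0 c m))
      (fun i => (hstep i).1) hH1' hn'
    refine ⟨m :: l, by simp [hl], ?_, fun i => hres i⟩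
    intro p hp
    rcases List.mem_cons.1 hp with rfl | hp
    · exact hm
    · exact hlP p hp

/-- **Covering lemma** (blueprint Claim 7, down-twist form): finitely many line bundles `N i`
with the same `h⁰` after every sufficiently positive twist (i.e. the same Euler characteristic)
become simultaneously acyclic after a twist `m • D∞` and twisting down at a list of points of
`Pts`. -/
theorem exists_twist_points (hc : c.FiniteProjOverLine) {Pts : Set (Ideal R0)}
    (hPts : Pts.Infinite) (hgood : ∀ m ∈ Pts, GoodPoint c m) (hz : FiniteZeros Pts)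
    {ι : Type*} [Finite ι] (N : ι → QC2 K R0 R1 R01) (hN : ∀ i, (N i).IsLine)
    (hsame : ∃ m₁ : ℕ, ∀ m : ℤ, (m₁ : ℤ) ≤ m → (∀ i, Subsingleton ((N i).twist c m).H1) →
      ∀ i j, finrank K ((N i).twist c m).H0 = finrank K ((N j).twist c m).H0) :
    ∃ (m : ℕ) (l : List (Ideal R0)), (∀ p ∈ l, p ∈ Pts) ∧
      ∀ i, (downTwistList c ((N i).twist c m) l).IsLine ∧
        (downTwistList c ((N i).twist c m) l).H0 = ⊥ ∧
        Subsingleton (downTwistList c ((N i).twist c m) l).H1 := by
  classical
  have hvan : ∀ i, ∃ m₀ : ℕ, ∀ m : ℤ, (m₀ : ℤ) ≤ m → Subsingleton ((N i).twist c m).H1 :=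
    fun i => P1CohChi.exists_twist_H1_subsingleton c (N i) (finiteOverLine_of_isLine c hc (hN i))
  choose m₀ hm₀ using hvan
  obtain ⟨m₁, hm₁⟩ := hsame
  haveI := Fintype.ofFinite ι
  let M : ℕ := max m₁ (Finset.univ.sup m₀)
  have hM0 : ∀ i, (m₀ i : ℤ) ≤ (M : ℤ) := by
    intro i
    have h1 : m₀ i ≤ Finset.univ.sup m₀ := Finset.le_sup (Finset.mem_univ i)
    have h2 : Finset.univ.sup m₀ ≤ M := le_max_right _ _
    exact_mod_cast h1.trans h2
  have hM1 : (m₁ : ℤ) ≤ (M : ℤ) := by exact_mod_cast le_max_left _ _
  have hH1 : ∀ i, Subsingleton ((N i).twist c (M : ℤ)).H1 := fun i => hm₀ i _ (hM0 i)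
  have hLine : ∀ i, ((N i).twist c (M : ℤ)).IsLine := fun i => ⟨(hN i).inv0, (hN i).inv1⟩
  rcases isEmpty_or_nonempty ι with hι | ⟨⟨i₀⟩⟩
  · exact ⟨M, [], by simp, fun i => (hι.false i).elim⟩
  · obtain ⟨l, -, hlP, hres⟩ := exists_points c hc hPts hgood hz
      (finrank K ((N i₀).twist c (M : ℤ)).H0) (fun i => (N i).twist c (M : ℤ)) hLine hH1
      (fun i => hm₁ _ hM1 hH1 i i₀)
    exact ⟨M, l, hlP, hres⟩

end Field

end Fermat.Agent.Jac.RiemannCover82.Cover
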