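/-
Fermat/Agent/Jac/RiemannCover82/H0k.lean  (helper82, JAC programme, brick A2')

**Global functions are constant.**  For a two-chart curve `c : TwoChart k R0 R1 R01` over an
algebraically closed field `k`, with charts finite projective over the line and `R01` a domain:
`H⁰(𝒪) = k`, i.e. every element of `(QC2.unit).H0` is `(a, a)` for a unique `a : k`.

This file proves the statement from finite-dimensionality of `H⁰(𝒪)` over `k` (a consequence of the
`P1Coh` bricks); the injectivity of `R0 → R01`, `R1 → R01` is derived from projectivity over the line.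
-/
import Mathlib
import Fermat.Agent.Jac.Core

set_option autoImplicit false
set_option linter.unusedSectionVars false
set_option linter.style.haveILetI false

universe u

open Polynomial

namespace Fermat.Agent.Jac.RiemannCover82.H0k

open Fermat.Agent.Jac

section Inj

variable {A R0 R1 R01 : Type u} [CommRing A] [IsDomain A] [CommRing R0] [CommRing R1] [CommRing R01]
  [Algebra A R0] [Algebra A R1] [Algebra A R01] [Algebra R0 R01] [Algebra R1 R01]
  [IsScalarTower A R0 R01] [IsScalarTower A R1 R01]

/-- In a projective module over a domain, a nonzero scalar acts injectively. -/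
theorem smul_eq_zero_of_projective {S M : Type*} [CommRing S] [IsDomain S] [AddCommGroup M]
    [Module S M] [Module.Projective S M] {a : S} (ha : a ≠ 0) {m : M} (h : a • m = 0) : m = 0 := by
  obtain ⟨s, hs⟩ := (Module.projective_def'.mp (inferInstance : Module.Projective S M))
  have h1 : a • s m = 0 := by rw [← map_smul, h, map_zero]
  have h2 : s m = 0 := by
    rcases smul_eq_zero.mp h1 with h' | h'
    · exact absurd h' ha
    · exact h'
  have := congrArg (fun f => f m) hs
  simpa [h2] using this.symm

/-- If `M` (an `R`-module, `R` an `A`-algebra) is projective over `A[X]` with `X` acting as `a : R`,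
then `a` acts injectively on `M`. -/
theorem smul_injective_of_projective_aeval {R M : Type*} [CommRing R] [Algebra A R]
    [AddCommGroup M] [Module A M] [Module R M] [IsScalarTower A R M] (a : R)
    [Module.Projective A[X] (Module.AEval A M a)] {m : M} (h : a • m = 0) : m = 0 := by
  have h' : (X : A[X]) • Module.AEval.of A M a m = 0 := by
    rw [Module.AEval.X_smul_of, h, map_zero]
  have := smul_eq_zero_of_projective (S := A[X]) (X_ne_zero) h'
  exact (Module.AEval.of A M a).injective (by rw [this, map_zero])

variable (c : TwoChart A R0 R1 R01)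

/-- `R0 → R01` is injective when `R0` is projective over the line. -/
theorem injective_algebraMap0 (hc : c.FiniteProjOverLine) :
    Function.Injective (algebraMap R0 R01) := by
  haveI := c.away0
  haveI := hc.proj0
  refine IsLocalization.injective R01 (M := Submonoid.powers c.t) ?_
  refine Submonoid.powers_le.mpr ?_
  rw [mem_nonZeroDivisors_iff_right]
  intro x hx
  have : c.t • x = 0 := by rw [smul_eq_mul, mul_comm]; exact hx
  exact smul_injective_of_projective_aeval (A := A) (M := R0) c.t this

/-- `R1 → R01` is injective when `R1` is projective over the line. -/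
theorem injective_algebraMap1 (hc : c.FiniteProjOverLine) :
    Function.Injective (algebraMap R1 R01) := by
  haveI := c.away1
  haveI := hc.proj1
  refine IsLocalization.injective R01 (M := Submonoid.powers c.s) ?_
  refine Submonoid.powers_le.mpr ?_
  rw [mem_nonZeroDivisors_iff_right]
  intro x hx
  have : c.s • x = 0 := by rw [smul_eq_mul, mul_comm]; exact hx
  exact smul_injective_of_projective_aeval (A := A) (M := R1) c.s this

end Inj

section Main

variable {k R0 R1 R01 : Type u} [Field k] [CommRing R0] [CommRing R1] [CommRing R01]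
  [Algebra k R0] [Algebra k R1] [Algebra k R01] [Algebra R0 R01] [Algebra R1 R01]
  [IsScalarTower k R0 R01] [IsScalarTower k R1 R01]

/-- the Čech differential, evaluated. -/
theorem d_apply (L : QC2 k R0 R1 R01) (x : L.N0 × L.N1) : L.d x = L.r0 x.1 - L.r1 x.2 := by
  simp [QC2.d, sub_eq_add_neg]

/-- membership in `H⁰`: the two sections agree on the overlap. -/
theorem mem_H0_iff (L : QC2 k R0 R1 R01) (x : L.N0 × L.N1) : x ∈ L.H0 ↔ L.r0 x.1 = L.r1 x.2 := by
  show L.d x = 0 ↔ _
  rw [d_apply, sub_eq_zero]

/-- membership in `H⁰(𝒪)`: the two functions agree on the overlap. -/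
theorem mem_unit_H0_iff (x : R0 × R1) :
    x ∈ (QC2.unit : QC2 k R0 R1 R01).H0 ↔ algebraMap R0 R01 x.1 = algebraMap R1 R01 x.2 :=
  mem_H0_iff (QC2.unit : QC2 k R0 R1 R01) x

/-- the constants are global functions. -/
theorem const_mem_unit_H0 (a : k) :
    ((algebraMap k R0 a, algebraMap k R1 a) : R0 × R1) ∈ (QC2.unit : QC2 k R0 R1 R01).H0 := by
  rw [mem_unit_H0_iff]
  show algebraMap R0 R01 (algebraMap k R0 a) = algebraMap R1 R01 (algebraMap k R1 a)
  rw [← IsScalarTower.algebraMap_apply, ← IsScalarTower.algebraMap_apply]

variable (k R0 R1 R01) in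
/-- The `k`-algebra of global functions: pairs of functions on the two charts agreeing on the
overlap.  Its underlying submodule is `(QC2.unit).H0`. -/
def globalFunctions : Subalgebra k (R0 × R1) :=
  AlgHom.equalizer ((IsScalarTower.toAlgHom k R0 R01).comp (AlgHom.fst k R0 R1))
    ((IsScalarTower.toAlgHom k R1 R01).comp (AlgHom.snd k R0 R1))

theorem mem_globalFunctions_iff (x : R0 × R1) :
    x ∈ globalFunctions k R0 R1 R01 ↔ algebraMap R0 R01 x.1 = algebraMap R1 R01 x.2 := Iff.rfl

theorem mem_globalFunctions_iff_mem_H0 (x : R0 × R1) :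
    x ∈ globalFunctions k R0 R1 R01 ↔ x ∈ (QC2.unit : QC2 k R0 R1 R01).H0 := by
  rw [mem_globalFunctions_iff, mem_unit_H0_iff]

/-- `H⁰(𝒪)` and the algebra of global functions are the same submodule. -/
def globalFunctionsEquiv :
    (QC2.unit : QC2 k R0 R1 R01).H0 ≃ₗ[k] globalFunctions k R0 R1 R01 where
  toFun x := ⟨x.1, (mem_globalFunctions_iff_mem_H0 _).mpr x.2⟩
  invFun x := ⟨x.1, (mem_globalFunctions_iff_mem_H0 _).mp x.2⟩
  map_add' _ _ := rfl
  map_smul' _ _ := rfl
  left_inv _ := rfl
  right_inv _ := rfl

/-- The global functions embed in the ring of functions on the overlap. -/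
def globalFunctionsToOverlap : globalFunctions k R0 R1 R01 →ₐ[k] R01 :=
  ((IsScalarTower.toAlgHom k R0 R01).comp (AlgHom.fst k R0 R1)).comp
    (globalFunctions k R0 R1 R01).val

theorem globalFunctionsToOverlap_apply (x : globalFunctions k R0 R1 R01) :
    globalFunctionsToOverlap x = algebraMap R0 R01 x.1.1 := rfl

theorem globalFunctionsToOverlap_injective
    (hinj0 : Function.Injective (algebraMap R0 R01))
    (hinj1 : Function.Injective (algebraMap R1 R01)) :
    Function.Injective (globalFunctionsToOverlap (k := k) (R0 := R0) (R1 := R1) (R01 := R01)) := by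
  intro x y h
  rw [globalFunctionsToOverlap_apply, globalFunctionsToOverlap_apply] at h
  have h0 : x.1.1 = y.1.1 := hinj0 h
  have hx := (mem_globalFunctions_iff (k := k) x.1).mp x.2
  have hy := (mem_globalFunctions_iff (k := k) y.1).mp y.2
  have h1 : x.1.2 = y.1.2 := hinj1 (by rw [← hx, ← hy, h])
  exact Subtype.ext (Prod.ext h0 h1)

/-- **`H⁰(𝒪) = k`**, from finite-dimensionality: every global function is a constant. -/
theorem exists_const_of_mem_unit_H0 [IsAlgClosed k] [IsDomain R01]
    (hinj0 : Function.Injective (algebraMap R0 R01)) (hinj1 : Function.Injective (algebraMap R1 R01))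
    [hfin : Module.Finite k (QC2.unit : QC2 k R0 R1 R01).H0]
    {x : R0 × R1} (hx : x ∈ (QC2.unit : QC2 k R0 R1 R01).H0) :
    ∃ a : k, x = (algebraMap k R0 a, algebraMap k R1 a) := by
  set G := globalFunctions k R0 R1 R01 with hG
  haveI : Module.Finite k G := Module.Finite.equiv (globalFunctionsEquiv (k := k) (R0 := R0) (R1 := R1) (R01 := R01))
  haveI : IsDomain G :=
    (globalFunctionsToOverlap_injective (k := k) hinj0 hinj1).isDomain
      (globalFunctionsToOverlap (k := k) (R0 := R0) (R1 := R1) (R01 := R01)).toRingHom
  haveI : Algebra.IsIntegral k G := Algebra.IsIntegral.of_finite k G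
  have hbij : Function.Bijective (algebraMap k G) := IsAlgClosed.algebraMap_bijective_of_isIntegral
  obtain ⟨a, ha⟩ := hbij.2 ⟨x, (mem_globalFunctions_iff_mem_H0 x).mpr hx⟩
  refine ⟨a, ?_⟩
  have := congrArg Subtype.val ha
  simpa using this.symm

/-- `H⁰(𝒪)` is one-dimensional. -/
theorem finrank_unit_H0 [IsAlgClosed k] [IsDomain R01]
    (hinj0 : Function.Injective (algebraMap R0 R01)) (hinj1 : Function.Injective (algebraMap R1 R01))
    [hfin : Module.Finite k (QC2.unit : QC2 k R0 R1 R01).H0] :
    Module.finrank k (QC2.unit : QC2 k R0 R1 R01).H0 = 1 := by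
  set G := globalFunctions k R0 R1 R01 with hG
  haveI : Module.Finite k G := Module.Finite.equiv (globalFunctionsEquiv (k := k) (R0 := R0) (R1 := R1) (R01 := R01))
  haveI : IsDomain G :=
    (globalFunctionsToOverlap_injective (k := k) hinj0 hinj1).isDomain
      (globalFunctionsToOverlap (k := k) (R0 := R0) (R1 := R1) (R01 := R01)).toRingHom
  haveI : Algebra.IsIntegral k G := Algebra.IsIntegral.of_finite k G
  have hbij : Function.Bijective (algebraMap k G) := IsAlgClosed.algebraMap_bijective_of_isIntegral
  rw [(globalFunctionsEquiv (k := k) (R0 := R0) (R1 := R1) (R01 := R01)).finrank_eq,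
    ← Module.finrank_self k]
  exact ((AlgEquiv.ofBijective (Algebra.ofId k G) hbij).toLinearEquiv.finrank_eq).symm

/-- The two-chart form: `H⁰(𝒪) = k` for a curve whose charts are finite projective over the line,
given finite-dimensionality of `H⁰(𝒪)`. -/
theorem exists_const_of_mem_unit_H0' [IsAlgClosed k] [IsDomain R01] (c : TwoChart k R0 R1 R01)
    (hc : c.FiniteProjOverLine) [Module.Finite k (QC2.unit : QC2 k R0 R1 R01).H0]
    {x : R0 × R1} (hx : x ∈ (QC2.unit : QC2 k R0 R1 R01).H0) :
    ∃ a : k, x = (algebraMap k R0 a, algebraMap k R1 a) :=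
  exists_const_of_mem_unit_H0 (injective_algebraMap0 c hc) (injective_algebraMap1 c hc) hx

end Main

end Fermat.Agent.Jac.RiemannCover82.H0k
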