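/-
Fermat/Agent/Jac/RiemannCover82/CoverChi.lean  (helper82, JAC programme, brick A2')

The covering lemma `Cover.exists_twist_points` with its numerical hypothesis discharged by the
degree formula of helper14 (`P1CohChi.LineRank.chiField_twist_line`): finitely many line bundles
`N i` over a field `K` *with the same Euler characteristic* become simultaneously acyclic after a
twist `m • D∞` and twisting down at points of `Pts`.  Also: the chart-1 invertibility in
`Step.GoodPoint` is automatic (helper39, `LineOps39.invertible_ofChart0_I1`).
-/
import Fermat.Agent.Jac.RiemannCover82.Cover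
import Fermat.Agent.Jac.P1CohChi.LineRank
import Fermat.Agent.Jac.P1CohChi.TwistFormula
import Fermat.Agent.Jac.LineOps39.PatchInvertible

set_option autoImplicit false
set_option linter.unusedSectionVars false
set_option linter.style.haveILetI false

universe u

namespace Fermat.Agent.Jac.RiemannCover82.CoverChi

open Fermat.Agent.Jac Fermat.Agent.Jac.LineOps39 Fermat.Agent.Jac.RiemannCover82.Step
  Fermat.Agent.Jac.RiemannCover82.Cover Module TensorProduct

variable {K R0 R1 R01 : Type u} [Field K] [CommRing R0] [CommRing R1] [CommRing R01]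
  [Algebra K R0] [Algebra K R1] [Algebra K R01] [Algebra R0 R01] [Algebra R1 R01]
  [IsScalarTower K R0 R01] [IsScalarTower K R1 R01]

variable (c : TwoChart K R0 R1 R01)

/-- A `K`-rational maximal ideal of the first chart which is an invertible module is a good
point: the invertibility of its closure ideal on the second chart is automatic. -/
theorem goodPoint_of_invertible {m : Ideal R0} (hmax : m.IsMaximal)
    (hK : Function.Surjective (algebraMap K (R0 ⧸ m))) (h0 : Module.Invertible R0 m) :
    GoodPoint c m := by
  obtain ⟨a, ha⟩ := exists_const_sub_mem m hK c.t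
  exact ⟨hmax, hK, h0, invertible_ofChart0_I1 c m h0 a ha⟩

/-- The Euler characteristic `h⁰ - h¹` of a two-chart module over a field. -/
noncomputable def euler (L : QC2 K R0 R1 R01) : ℤ :=
  (finrank K L.H0 : ℤ) - (finrank K L.H1 : ℤ)

theorem euler_eq_chiField (L : QC2 K R0 R1 R01) : euler L = L.chiField K :=
  (P1CohChi.chiField_self L).symm

/-- **Degree formula over a field**: `χ(L(m)) = χ(L) + m · dim_K (R1 / s R1)` for a line bundle
`L`. -/
theorem euler_twist (hc : c.FiniteProjOverLine) {L : QC2 K R0 R1 R01} (hL : L.IsLine) (m : ℤ) :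
    euler (L.twist c m) = euler L + m * (finrank K (P1CohChi.LineRank.UInf c) : ℤ) := by
  rw [euler_eq_chiField, euler_eq_chiField,
    P1CohChi.LineRank.chiField_twist_line c L hc (finiteOverLine_of_isLine c hc hL)
      (projOverLine_of_isLine c hc hL) hL.inv1 K m, P1CohChi.finrank_tensor_self]

/-- **Covering lemma** (blueprint Claim 7): finitely many line bundles `N i` over a field with the
same Euler characteristic become simultaneously acyclic after a twist `m • D∞` and twisting down
at a list of points of `Pts`. -/
theorem exists_twist_points_of_euler (hc : c.FiniteProjOverLine) {Pts : Set (Ideal R0)}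
    (hPts : Pts.Infinite)
    (hgood : ∀ m ∈ Pts, m.IsMaximal ∧ Function.Surjective (algebraMap K (R0 ⧸ m)) ∧
      Module.Invertible R0 m)
    (hz : FiniteZeros Pts) {ι : Type*} [Finite ι] (N : ι → QC2 K R0 R1 R01)
    (hN : ∀ i, (N i).IsLine) (hchi : ∀ i j, euler (N i) = euler (N j)) :
    ∃ (m : ℕ) (l : List (Ideal R0)), (∀ p ∈ l, p ∈ Pts) ∧
      ∀ i, (downTwistList c ((N i).twist c m) l).IsLine ∧
        (downTwistList c ((N i).twist c m) l).H0 = ⊥ ∧
        Subsingleton (downTwistList c ((N i).twist c m) l).H1 := by
  refine exists_twist_points c hc hPts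
    (fun m hm => goodPoint_of_invertible c (hgood m hm).1 (hgood m hm).2.1 (hgood m hm).2.2)
    hz N hN ⟨0, fun m _ hH1 i j => ?_⟩
  have hi := euler_twist c hc (hN i) m
  have hj := euler_twist c hc (hN j) m
  haveI := hH1 i
  haveI := hH1 j
  have h1i : finrank K ((N i).twist c m).H1 = 0 := Module.finrank_zero_of_subsingleton
  have h1j : finrank K ((N j).twist c m).H1 = 0 := Module.finrank_zero_of_subsingleton
  rw [euler, h1i] at hi
  rw [euler, h1j] at hj
  have := hchi i j
  have h : (finrank K ((N i).twist c m).H0 : ℤ) = finrank K ((N j).twist c m).H0 := by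
    simp only [Nat.cast_zero, sub_zero] at hi hj
    rw [hi, hj, this]
  exact_mod_cast h

/-- The length of the list of points is forced by the Euler characteristic: if `L` is a line
bundle and `L(-∑ l)` at good points `l` is acyclic with `H¹(L) = 0`... (numerical bookkeeping):
one down-twist at a good point lowers the Euler characteristic by one. -/
theorem euler_downTwist (hc : c.FiniteProjOverLine) {L : QC2 K R0 R1 R01} (hL : L.IsLine)
    {m : Ideal R0} (hm : GoodPoint c m) :
    euler (downTwist c L (IdealPair.ofChart0 c m)) + 1 = euler L := by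
  obtain ⟨a, ha⟩ := exists_const_sub_mem m hm.rational c.t
  have hmod := isModAt_downTwistHom c L m a ha
  have hL' : (downTwist c L (IdealPair.ofChart0 c m)).IsLine :=
    isLine_downTwist c hL _ hm.inv0 hm.inv1
  haveI := finiteDimensional_H0 c hc hL
  haveI := finiteDimensional_H1 c hc hL
  haveI := finiteDimensional_H1 c hc hL'
  haveI := hm.isMaximal
  haveI := hL.inv0
  have hr : LinearMap.range (downTwistHom c L (IdealPair.ofChart0 c m)).f0
      = (m • ⊤ : Submodule R0 L.N0) := hmod.range0
  have e : (L.N0 ⧸ LinearMap.range (downTwistHom c L (IdealPair.ofChart0 c m)).f0) ≃ₗ[K]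
      (L.N0 ⧸ (m • ⊤ : Submodule R0 L.N0)) :=
    (Submodule.quotEquivOfEq _ _ hr).restrictScalars K
  have h1 : finrank K (L.N0 ⧸ LinearMap.range (downTwistHom c L (IdealPair.ofChart0 c m)).f0)
      = 1 := by
    rw [e.finrank_eq]
    exact finrank_quot_smul_top_eq_one m hm.rational
  haveI : FiniteDimensional K
      (L.N0 ⧸ LinearMap.range (downTwistHom c L (IdealPair.ofChart0 c m)).f0) :=
    Module.finite_of_finrank_pos (by rw [h1]; exact Nat.one_pos)
  have key := hmod.finrank_formula c
  rw [h1] at key
  unfold euler
  omega

/-- Iterated version: twisting down at a list of good points lowers the Euler characteristic by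
the length of the list. -/
theorem euler_downTwistList (hc : c.FiniteProjOverLine) (l : List (Ideal R0))
    (hl : ∀ m ∈ l, GoodPoint c m) :
    ∀ {L : QC2 K R0 R1 R01}, L.IsLine →
      (downTwistList c L l).IsLine ∧ euler (downTwistList c L l) + l.length = euler L := by
  induction l with
  | nil =>
    intro L hL
    exact ⟨hL, by simp⟩
  | cons m l ih =>
    intro L hL
    have hm := hl m (List.mem_cons_self)
    have hL' : (downTwist c L (IdealPair.ofChart0 c m)).IsLine :=
      isLine_downTwist c hL _ hm.inv0 hm.inv1
    obtain ⟨h1, h2⟩ := ih (fun p hp => hl p (List.mem_cons_of_mem _ hp)) hL'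
    refine ⟨h1, ?_⟩
    have h3 := euler_downTwist c hc hL hm
    rw [downTwistList_cons, List.length_cons]
    push_cast
    omega

end Fermat.Agent.Jac.RiemannCover82.CoverChi
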