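/-
Fermat/Agent/Jac/RiemannCover82/PointsBC.lean  (helper82, JAC programme, bricks A2' / C1c)

**Base-changed rational points.**  `k` a field, `K` a field over `k`, `B` a `k`-algebra (a chart of
a curve over `k`).  A `k`-point `Q : B →ₐ[k] k` gives the `K`-point
`pointBC Q : K ⊗[k] B →ₐ[K] K`, `c ⊗ x ↦ c * Q x`, with kernel `pointIdeal K Q`.

* `pointIdeal_eq_map` : `pointIdeal K Q = (ker Q) (K ⊗ B)`;
* `pointIdeal_isMaximal`, `pointIdeal_rational` : it is a `K`-rational maximal ideal;
* `pointIdeal_injective` : distinct `k`-points give distinct ideals;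
* `pointIdeal_invertible` : for `B` a Dedekind domain which is not a field, it is an invertible
  `K ⊗ B`-module (flat base change of the invertible ideal `ker Q`);
* `finite_zeros_pointIdeal` : for `B` Dedekind, a nonzero element of a projective `K ⊗ B`-module
  vanishes at only finitely many base-changed points (`K ⊗ B` need not be Dedekind: coordinates
  with respect to a `k`-basis of `K`);
* generalities: `invertible_of_isDedekindDomain`, `invertible_map_of_flat`, `flat_right`.
-/
import Mathlib
import Fermat.Agent.Jac.RiemannCover82.Zeros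

set_option autoImplicit false
set_option linter.unusedSectionVars false
set_option linter.style.haveILetI false

universe u

open TensorProduct

namespace Fermat.Agent.Jac.RiemannCover82.PointsBC

/-! ### Invertible ideals -/


/-- A nonzero ideal of a Dedekind domain is an invertible module. -/
theorem invertible_of_isDedekindDomain {B : Type*} [CommRing B] [IsDedekindDomain B] (I : Ideal B)
    (hI : I ≠ ⊥) : Module.Invertible B I := by
  classical
  let F := FractionRing B
  have hne : (I : FractionalIdeal (nonZeroDivisors B) F) ≠ 0 :=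
    FractionalIdeal.coeIdeal_ne_zero.2 hI
  let u : (FractionalIdeal (nonZeroDivisors B) F)ˣ := Units.mk0 _ hne
  let v : (Submodule B F)ˣ := Units.map (FractionalIdeal.coeSubmoduleHom (nonZeroDivisors B) F).toMonoidHom u
  have hv : (v : Submodule B F) = Submodule.map (Algebra.linearMap B F) I := by
    show ((I : FractionalIdeal (nonZeroDivisors B) F) : Submodule B F) = _
    rw [FractionalIdeal.coe_coeIdeal]
    rfl
  have inst : Module.Invertible B (v : Submodule B F) := inferInstance
  have e1 : I ≃ₗ[B] Submodule.map (Algebra.linearMap B F) I :=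
    Submodule.equivMapOfInjective _ (IsFractionRing.injective B F) I
  exact Module.Invertible.congr ((LinearEquiv.ofEq _ _ hv).trans e1.symm)

/-- The extension of an invertible ideal along a flat ring map is an invertible module. -/
theorem invertible_map_of_flat {B R : Type*} [CommRing B] [CommRing R] [Algebra B R]
    [Module.Flat B R] (I : Ideal B) [Module.Invertible B I] :
    Module.Invertible R (I.map (algebraMap B R)) := by
  let f : R ⊗[B] I →ₗ[R] R :=
    (TensorProduct.AlgebraTensorModule.rid B R R).toLinearMap ∘ₗ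
      (LinearMap.baseChange R (I.subtype : I →ₗ[B] B))
  have hf_tmul : ∀ (r : R) (y : I), f (r ⊗ₜ y) = algebraMap B R y * r := by
    intro r y
    simp [f, Algebra.smul_def]
  have hinj : Function.Injective f := by
    refine (TensorProduct.AlgebraTensorModule.rid B R R).injective.comp ?_
    have := Module.Flat.lTensor_preserves_injective_linearMap (M := R) (I.subtype : I →ₗ[B] B)
      Subtype.val_injective
    exact this
  have hrange : LinearMap.range f = (I.map (algebraMap B R)).restrictScalars R := by
    apply le_antisymm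
    · rintro _ ⟨z, rfl⟩
      induction z using TensorProduct.induction_on with
      | zero => simp
      | tmul r y =>
        rw [hf_tmul]
        exact Ideal.mul_mem_right _ _ (Ideal.mem_map_of_mem _ y.2)
      | add a b ha hb => rw [map_add]; exact add_mem ha hb
    · intro x hx
      have hx' : x ∈ I.map (algebraMap B R) := hx
      refine Submodule.span_induction (p := fun x _ => x ∈ LinearMap.range f) ?_ ?_ ?_ ?_ hx'
      · rintro _ ⟨y, hy, rfl⟩
        exact ⟨1 ⊗ₜ ⟨y, hy⟩, by rw [hf_tmul]; simp⟩
      · exact zero_mem _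
      · intro a b _ _ ha hb; exact add_mem ha hb
      · intro a b _ hb; exact Submodule.smul_mem _ a hb
  exact Module.Invertible.congr ((LinearEquiv.ofInjective f hinj).trans (LinearEquiv.ofEq _ _ hrange))


/-! ### Flatness of `K ⊗[k] B` over `B` -/


section
variable {k K B : Type*} [Field k] [Field K] [Algebra k K] [CommRing B] [Algebra k B]

attribute [local instance] Algebra.TensorProduct.rightAlgebra

theorem comm_smul_right (b : B) (z : K ⊗[k] B) :
    TensorProduct.comm k K B (b • z) = b • TensorProduct.comm k K B z := by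
  induction z using TensorProduct.induction_on with
  | zero => simp
  | tmul c x =>
    simp only [Algebra.smul_def, Algebra.TensorProduct.right_algebraMap_apply,
      Algebra.TensorProduct.tmul_mul_tmul, one_mul, TensorProduct.comm_tmul,
      Algebra.TensorProduct.algebraMap_apply, Algebra.algebraMap_self_apply]
  | add a b ha hb => rw [smul_add, map_add, map_add, smul_add, ha, hb]

/-- `K ⊗[k] B` is flat over `B` (acting on the right factor). -/
theorem flat_right : Module.Flat B (K ⊗[k] B) := by
  let e : (K ⊗[k] B) ≃ₗ[B] (B ⊗[k] K) :=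
    { (TensorProduct.comm k K B) with
      map_smul' := fun b z => comm_smul_right b z }
  exact Module.Flat.of_linearEquiv e

end

/-! ### Base-changed points -/


section
variable {k K B : Type*} [Field k] [Field K] [Algebra k K] [CommRing B] [Algebra k B]

/-- The base change to `K` of a `k`-point `Q` of `B`: the `K`-point `c ⊗ x ↦ c * Q x` of
`K ⊗[k] B`. -/
noncomputable def pointBC (Q : B →ₐ[k] k) : K ⊗[k] B →ₐ[K] K :=
  Algebra.TensorProduct.lift (AlgHom.id K K) ((Algebra.ofId k K).comp Q)
    (fun _ _ => Commute.all _ _)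

@[simp] theorem pointBC_tmul (Q : B →ₐ[k] k) (c : K) (x : B) :
    pointBC Q (c ⊗ₜ[k] x) = c * algebraMap k K (Q x) := by
  simp [pointBC, Algebra.ofId_apply]

variable (K) in
/-- The ideal of the base-changed point. -/
noncomputable def pointIdeal (Q : B →ₐ[k] k) : Ideal (K ⊗[k] B) :=
  RingHom.ker (pointBC (K := K) Q)

theorem sub_tmul_one_mem (Q : B →ₐ[k] k) (z : K ⊗[k] B) :
    z - (pointBC Q z) ⊗ₜ[k] (1 : B) ∈
      (RingHom.ker Q).map (Algebra.TensorProduct.includeRight : B →ₐ[k] K ⊗[k] B) := by
  induction z using TensorProduct.induction_on with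
  | zero => simp
  | tmul c x =>
    have h1 : c ⊗ₜ[k] x - (pointBC Q (c ⊗ₜ[k] x)) ⊗ₜ[k] (1 : B)
        = (c ⊗ₜ[k] (1 : B)) * (Algebra.TensorProduct.includeRight (R := k) (A := K)
            (x - algebraMap k B (Q x))) := by
      rw [pointBC_tmul, Algebra.TensorProduct.includeRight_apply,
        Algebra.TensorProduct.tmul_mul_tmul, mul_one, one_mul, tmul_sub, mul_comm,
        ← Algebra.smul_def, TensorProduct.smul_tmul, Algebra.algebraMap_eq_smul_one]
    rw [h1]
    refine Ideal.mul_mem_left _ _ (Ideal.mem_map_of_mem _ ?_)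
    rw [RingHom.mem_ker, map_sub, AlgHom.commutes, Algebra.algebraMap_self_apply, sub_self]
  | add a b ha hb =>
    have : a + b - (pointBC Q (a + b)) ⊗ₜ[k] (1 : B)
        = (a - (pointBC Q a) ⊗ₜ[k] (1 : B)) + (b - (pointBC Q b) ⊗ₜ[k] (1 : B)) := by
      rw [map_add, add_tmul]; abel
    rw [this]
    exact add_mem ha hb

/-- The ideal of the base-changed point is the extension of the ideal of the point. -/
theorem pointIdeal_eq_map (Q : B →ₐ[k] k) :
    pointIdeal K Q =
      (RingHom.ker Q).map (Algebra.TensorProduct.includeRight : B →ₐ[k] K ⊗[k] B) := by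
  apply le_antisymm
  · intro z hz
    have hz' : pointBC Q z = 0 := hz
    have := sub_tmul_one_mem (K := K) Q z
    rwa [hz', zero_tmul, sub_zero] at this
  · rw [Ideal.map_le_iff_le_comap]
    intro y hy
    have hy' : Q y = 0 := hy
    show pointBC Q ((1 : K) ⊗ₜ[k] y) = 0
    rw [pointBC_tmul, hy', map_zero, mul_zero]

theorem pointBC_surjective (Q : B →ₐ[k] k) : Function.Surjective (pointBC (K := K) Q) := by
  intro c
  exact ⟨c ⊗ₜ 1, by simp⟩

theorem pointIdeal_isMaximal (Q : B →ₐ[k] k) : (pointIdeal K Q).IsMaximal :=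
  RingHom.ker_isMaximal_of_surjective _ (pointBC_surjective Q)

theorem pointIdeal_rational (Q : B →ₐ[k] k) :
    Function.Surjective (algebraMap K ((K ⊗[k] B) ⧸ pointIdeal K Q)) := by
  intro y
  obtain ⟨z, rfl⟩ := Ideal.Quotient.mk_surjective y
  refine ⟨pointBC Q z, ?_⟩
  rw [IsScalarTower.algebraMap_apply K (K ⊗[k] B) ((K ⊗[k] B) ⧸ pointIdeal K Q)]
  show Ideal.Quotient.mk _ _ = Ideal.Quotient.mk _ _
  rw [eq_comm, Ideal.Quotient.eq, pointIdeal_eq_map, Algebra.TensorProduct.algebraMap_apply,
    Algebra.algebraMap_self_apply]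
  exact sub_tmul_one_mem Q z

theorem pointIdeal_injective : Function.Injective (pointIdeal K (k := k) (B := B)) := by
  intro Q Q' h
  apply AlgHom.ext
  intro x
  have hx : (1 : K) ⊗ₜ[k] (x - algebraMap k B (Q x)) ∈ pointIdeal K Q := by
    show pointBC Q _ = 0
    rw [pointBC_tmul, map_sub, AlgHom.commutes, Algebra.algebraMap_self_apply, sub_self, map_zero,
      mul_zero]
  rw [h] at hx
  have hx' : pointBC (K := K) Q' ((1 : K) ⊗ₜ[k] (x - algebraMap k B (Q x))) = 0 := hx
  rw [pointBC_tmul, one_mul, map_sub, AlgHom.commutes, Algebra.algebraMap_self_apply] at hx'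
  have := (algebraMap k K).injective (hx'.trans (map_zero _).symm)
  exact (sub_eq_zero.1 this).symm

end

/-! ### Coordinates -/


section
variable {k K B : Type*} [Field k] [Field K] [Algebra k K] [CommRing B] [Algebra k B]

/-- Coordinates of `K ⊗[k] B` with respect to a `k`-basis of `K`. -/
noncomputable def coords {ι : Type*} (b : Module.Basis ι k K) : K ⊗[k] B ≃ₗ[k] (ι →₀ B) :=
  haveI := Classical.decEq ι
  TensorProduct.equivFinsuppOfBasisLeft b

theorem coords_tmul {ι : Type*} (b : Module.Basis ι k K) (c : K) (x : B) (j : ι) :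
    coords b (c ⊗ₜ[k] x) j = b.repr c j • x := by
  simp [coords]

/-- All coordinates of an element of the extension `I (K ⊗ B)` of an ideal `I` of `B` lie in
`I`. -/
theorem coords_mem_of_mem_map {ι : Type*} (b : Module.Basis ι k K) (I : Ideal B)
    {z : K ⊗[k] B}
    (hz : z ∈ I.map (Algebra.TensorProduct.includeRight : B →ₐ[k] K ⊗[k] B)) (j : ι) :
    coords b z j ∈ I := by
  have key : ∀ (r : K ⊗[k] B) (y : B), y ∈ I →
      coords b (r * (Algebra.TensorProduct.includeRight (R := k) (A := K) y)) j ∈ I := by
    intro r y hy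
    induction r using TensorProduct.induction_on with
    | zero => simp
    | tmul c x =>
      rw [Algebra.TensorProduct.includeRight_apply, Algebra.TensorProduct.tmul_mul_tmul, mul_one,
        coords_tmul, Algebra.smul_def]
      exact I.mul_mem_left _ (I.mul_mem_left _ hy)
    | add a a' ha ha' =>
      rw [add_mul, map_add, Finsupp.add_apply]
      exact add_mem ha ha'
  rw [Ideal.map, Ideal.span] at hz
  refine Submodule.closure_induction (p := fun z _ => coords b z j ∈ I) ?_ ?_ ?_ hz
  · simp
  · intro x y _ _ hx hy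
    rw [map_add, Finsupp.add_apply]
    exact add_mem hx hy
  · rintro r _ ⟨y, hy, rfl⟩
    exact key r y hy

theorem exists_coords_ne_zero {ι : Type*} (b : Module.Basis ι k K) {z : K ⊗[k] B} (hz : z ≠ 0) :
    ∃ j, coords b z j ≠ 0 := by
  by_contra h
  apply hz
  apply (coords (B := B) b).injective
  rw [map_zero]
  ext j
  by_contra hj
  exact h ⟨j, hj⟩

end

/-! ### Invertibility and finiteness of zeros -/

section
variable {k K B : Type*} [Field k] [Field K] [Algebra k K] [CommRing B] [Algebra k B]

theorem ker_isMaximal (Q : B →ₐ[k] k) : (RingHom.ker Q).IsMaximal :=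
  RingHom.ker_isMaximal_of_surjective _ (fun q => ⟨algebraMap k B q, by simp⟩)

theorem sub_algebraMap_mem_ker (Q : B →ₐ[k] k) (x : B) :
    x - algebraMap k B (Q x) ∈ RingHom.ker Q := by
  rw [RingHom.mem_ker, map_sub, AlgHom.commutes, Algebra.algebraMap_self_apply, sub_self]

theorem ker_injective : Function.Injective (fun Q : B →ₐ[k] k => RingHom.ker Q) := by
  intro Q Q' h
  apply AlgHom.ext
  intro x
  have hx := sub_algebraMap_mem_ker Q x
  have h' : RingHom.ker Q = RingHom.ker Q' := h
  rw [h', RingHom.mem_ker, map_sub, AlgHom.commutes, Algebra.algebraMap_self_apply,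
    sub_eq_zero] at hx
  exact hx.symm

/-- A nonzero element of a Dedekind domain vanishes at only finitely many `k`-points. -/
theorem finite_points_of_ne_zero [IsDedekindDomain B] {β : B} (hβ : β ≠ 0) :
    {Q : B →ₐ[k] k | Q β = 0}.Finite := by
  let f : (B →ₐ[k] k) → MaximalSpectrum B := fun Q => ⟨RingHom.ker Q, ker_isMaximal Q⟩
  have hf : Function.Injective f := by
    intro Q Q' h
    exact ker_injective (congrArg MaximalSpectrum.asIdeal h)
  have hfin := Zeros.finite_maximal_of_mem (R := B) hβ
  refine (hfin.preimage (hf.injOn)).subset ?_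
  intro Q hQ
  exact hQ


theorem finite_points_mem_pointIdeal [IsDedekindDomain B] {a : K ⊗[k] B} (ha : a ≠ 0) :
    {Q : B →ₐ[k] k | a ∈ pointIdeal K Q}.Finite := by
  obtain ⟨ι, ⟨b⟩⟩ := Module.Basis.exists_basis k K
  obtain ⟨j, hj⟩ := exists_coords_ne_zero (B := B) b ha
  have hfin : {Q : B →ₐ[k] k | Q (coords b a j) = 0}.Finite := finite_points_of_ne_zero (k := k) hj
  refine hfin.subset ?_
  intro Q hQ
  have h1 : a ∈ pointIdeal K Q := hQ
  rw [pointIdeal_eq_map] at h1
  exact coords_mem_of_mem_map b _ h1 j

end

section Generic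

/-- A family of ideals `P i` of a commutative ring `R` has *finite zeros* if every nonzero element
of a projective `R`-module `N` lies in `P i • N` for only finitely many `i`. -/
def FiniteZerosAt {R : Type*} [CommRing R] {ι : Type*} (P : ι → Ideal R) : Prop :=
  ∀ (N : Type u) [AddCommGroup N] [Module R N] [Module.Projective R N] (x : N), x ≠ 0 →
    {i | x ∈ P i • (⊤ : Submodule R N)}.Finite

theorem finiteZerosAt_of_forall {R : Type*} [CommRing R] {ι : Type*} (P : ι → Ideal R)
    (h : ∀ a : R, a ≠ 0 → {i | a ∈ P i}.Finite) : FiniteZerosAt.{u} P := by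
  intro N _ _ _ x hx
  obtain ⟨φ, hφ⟩ := Zeros.exists_dual_ne_zero (R := R) hx
  refine (h _ hφ).subset ?_
  intro i hi
  exact Zeros.map_mem_of_mem_smul_top φ _ hi

end Generic

section
variable {k K B : Type*} [Field k] [Field K] [Algebra k K] [CommRing B] [Algebra k B]

theorem finiteZerosAt_pointIdeal [IsDedekindDomain B] :
    FiniteZerosAt.{u} (pointIdeal K (k := k) (B := B)) :=
  finiteZerosAt_of_forall _ (fun _ ha => finite_points_mem_pointIdeal ha)


/-- The direct form of `finiteZerosAt_pointIdeal`. -/
theorem finite_zeros_pointIdeal [IsDedekindDomain B] {N : Type u} [AddCommGroup N]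
    [Module (K ⊗[k] B) N] [Module.Projective (K ⊗[k] B) N] {x : N} (hx : x ≠ 0) :
    {Q : B →ₐ[k] k | x ∈ pointIdeal K Q • (⊤ : Submodule (K ⊗[k] B) N)}.Finite :=
  finiteZerosAt_pointIdeal N x hx

attribute [local instance] Algebra.TensorProduct.rightAlgebra in
/-- The ideal of a base-changed point of a Dedekind domain (not a field) is an invertible
module. -/
theorem pointIdeal_invertible [IsDedekindDomain B] (Q : B →ₐ[k] k)
    (hQ : RingHom.ker Q ≠ ⊥) : Module.Invertible (K ⊗[k] B) (pointIdeal K Q) := by
  haveI := invertible_of_isDedekindDomain (RingHom.ker Q) hQ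
  haveI : Module.Flat B (K ⊗[k] B) := flat_right
  have h := invertible_map_of_flat (R := K ⊗[k] B) (RingHom.ker Q)
  rw [pointIdeal_eq_map]
  exact h

/-- The kernel of a `k`-point of `B` is nonzero unless `B = k`. -/
theorem ker_ne_bot (Q : B →ₐ[k] k) (hB : ¬ Function.Surjective (algebraMap k B)) :
    RingHom.ker Q ≠ ⊥ := by
  intro h
  apply hB
  intro x
  refine ⟨Q x, ?_⟩
  have := sub_algebraMap_mem_ker Q x
  rw [h, Ideal.mem_bot, sub_eq_zero] at this
  exact this.symm

end

end Fermat.Agent.Jac.RiemannCover82.PointsBC
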