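/-
Fermat/Agent/Jac/RiemannCover82/CoverBC.lean  (helper82, JAC programme, brick A2')

**The covering lemma for the base change of a curve to a field** (blueprint Claim 7, final form).

`k` a field, `c0 : TwoChart k B0 B1 B01` a two-chart curve over `k` whose charts are finite
projective over the line, `B0` a Dedekind domain (not a field... i.e. `B0 ≠ k`) with infinitely
many `k`-points; `K` any field over `k`.  For finitely many line bundles `N i` on the base change
`c0.baseChange K` (helper75) with the same Euler characteristic there are `m : ℕ` and a list `l` of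
`k`-points of `B0` such that `H⁰ = H¹ = 0` for all the bundles
`N i (m • D∞ - ∑_{Q ∈ l} Q_K)` *simultaneously*.
-/
import Fermat.Agent.Jac.RiemannCover82.CoverChi
import Fermat.Agent.Jac.RiemannCover82.PointsBC
import Fermat.Agent.Jac.BaseChange75.Rings

set_option autoImplicit false
set_option linter.unusedSectionVars false
set_option linter.style.haveILetI false

universe u

open TensorProduct

namespace Fermat.Agent.Jac.RiemannCover82.CoverBC

open Fermat.Agent.Jac Fermat.Agent.Jac.LineOps39 Fermat.Agent.Jac.RiemannCover82.Step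
  Fermat.Agent.Jac.RiemannCover82.Cover Fermat.Agent.Jac.RiemannCover82.CoverChi
  Fermat.Agent.Jac.RiemannCover82.PointsBC Module

open scoped Fermat.Agent.Jac.BaseChange75

variable {k B0 B1 B01 : Type u} [Field k] [CommRing B0] [CommRing B1] [CommRing B01]
  [Algebra k B0] [Algebra k B1] [Algebra k B01] [Algebra B0 B01] [Algebra B1 B01]
  [IsScalarTower k B0 B01] [IsScalarTower k B1 B01]

variable (K : Type u) [Field K] [Algebra k K]

variable (k B0) in
/-- The base changes to `K` of the `k`-points of the first chart. -/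
def rationalPts : Set (Ideal (K ⊗[k] B0)) := Set.range (pointIdeal K (k := k) (B := B0))

theorem rationalPts_infinite [Infinite (B0 →ₐ[k] k)] : (rationalPts k B0 K).Infinite :=
  Set.infinite_range_of_injective pointIdeal_injective

theorem finiteZeros_rationalPts [IsDedekindDomain B0] :
    FiniteZeros (R0 := K ⊗[k] B0) (rationalPts k B0 K) := by
  intro N _ _ _ x hx
  have hfin := finite_zeros_pointIdeal (k := k) (K := K) (B := B0) hx
  refine (hfin.image (pointIdeal K)).subset ?_
  rintro _ ⟨⟨Q, rfl⟩, hQ⟩
  exact ⟨Q, hQ, rfl⟩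

theorem good_rationalPts [IsDedekindDomain B0] (hB0 : ¬ Function.Surjective (algebraMap k B0))
    (m : Ideal (K ⊗[k] B0)) (hm : m ∈ rationalPts k B0 K) :
    m.IsMaximal ∧ Function.Surjective (algebraMap K ((K ⊗[k] B0) ⧸ m)) ∧
      Module.Invertible (K ⊗[k] B0) m := by
  obtain ⟨Q, rfl⟩ := hm
  exact ⟨pointIdeal_isMaximal Q, pointIdeal_rational Q,
    pointIdeal_invertible Q (ker_ne_bot Q hB0)⟩

/-- **Covering lemma over any field `K ⊇ k`** (blueprint Claim 7). -/
theorem exists_twist_points_baseChange (c0 : TwoChart k B0 B1 B01) (hc0 : c0.FiniteProjOverLine)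
    [IsDedekindDomain B0] [Infinite (B0 →ₐ[k] k)]
    (hB0 : ¬ Function.Surjective (algebraMap k B0)) {ι : Type*} [Finite ι]
    (N : ι → QC2 K (K ⊗[k] B0) (K ⊗[k] B1) (K ⊗[k] B01)) (hN : ∀ i, (N i).IsLine)
    (hchi : ∀ i j, euler (N i) = euler (N j)) :
    ∃ (m : ℕ) (l : List (B0 →ₐ[k] k)),
      ∀ i, (downTwistList (c0.baseChange K) ((N i).twist (c0.baseChange K) m)
          (l.map (pointIdeal K))).IsLine ∧
        (downTwistList (c0.baseChange K) ((N i).twist (c0.baseChange K) m)
          (l.map (pointIdeal K))).H0 = ⊥ ∧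
        Subsingleton (downTwistList (c0.baseChange K) ((N i).twist (c0.baseChange K) m)
          (l.map (pointIdeal K))).H1 := by
  obtain ⟨m, l, hl, hres⟩ := exists_twist_points_of_euler (c0.baseChange K) (hc0.baseChange K)
    (rationalPts_infinite K) (good_rationalPts K hB0) (finiteZeros_rationalPts K) N hN hchi
  have hlift : ∃ l' : List (B0 →ₐ[k] k), l'.map (pointIdeal K) = l := by
    clear hres
    induction l with
    | nil => exact ⟨[], rfl⟩
    | cons p l ih =>
      obtain ⟨Q, hQ⟩ := hl p (List.mem_cons_self)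
      obtain ⟨l', hl'⟩ := ih (fun q hq => hl q (List.mem_cons_of_mem _ hq))
      exact ⟨Q :: l', by rw [List.map_cons, hQ, hl']⟩
  obtain ⟨l', rfl⟩ := hlift
  exact ⟨m, l', hres⟩

end Fermat.Agent.Jac.RiemannCover82.CoverBC
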