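/-
Fermat/Agent/Jac/RiemannCover82/Zeros.lean  (helper82, JAC programme, brick A2')

**Finiteness of zeros.**  Over a Dedekind domain `R`, a nonzero element `x` of a projective module
`N` "vanishes" (i.e. lies in `m • N`) at only finitely many maximal ideals `m`.

Mathlib only.
-/
import Mathlib

set_option autoImplicit false

namespace Fermat.Agent.Jac.RiemannCover82.Zeros

open IsDedekindDomain

section General

variable {R : Type*} [CommRing R] {N : Type*} [AddCommGroup N] [Module R N]

/-- A nonzero element of a projective module is detected by some linear functional. -/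
theorem exists_dual_ne_zero [Module.Projective R N] {x : N} (hx : x ≠ 0) :
    ∃ φ : N →ₗ[R] R, φ x ≠ 0 := by
  obtain ⟨s, hs⟩ := (Module.projective_def'.mp (inferInstance : Module.Projective R N))
  have hsx : s x ≠ 0 := by
    intro h
    apply hx
    have := congrArg (fun f => f x) hs
    simpa [h] using this.symm
  obtain ⟨i, hi⟩ := Finsupp.ne_iff.mp hsx
  exact ⟨(Finsupp.lapply i).comp s, by simpa using hi⟩

/-- A linear functional maps `I • N` into `I`. -/
theorem map_mem_of_mem_smul_top (φ : N →ₗ[R] R) (I : Ideal R) {x : N}
    (hx : x ∈ (I • (⊤ : Submodule R N))) : φ x ∈ I := by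
  refine Submodule.smul_induction_on hx ?_ ?_
  · intro r hr n _
    rw [map_smul, smul_eq_mul]
    exact I.mul_mem_right _ hr
  · intro a b ha hb
    rw [map_add]
    exact I.add_mem ha hb

end General

section Dedekind

variable {R : Type*} [CommRing R] [IsDedekindDomain R]

/-- A nonzero element of a Dedekind domain lies in only finitely many maximal ideals. -/
theorem finite_maximal_of_mem {a : R} (ha : a ≠ 0) :
    {m : MaximalSpectrum R | a ∈ m.asIdeal}.Finite := by
  have hI : Ideal.span {a} ≠ 0 := by
    rw [Ne, Ideal.zero_eq_bot, Ideal.span_singleton_eq_bot]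
    exact ha
  have hfin := Ideal.finite_factors hI
  -- map the set of maximal ideals containing `a` injectively into the finite set of factors
  have hne : ∀ m : MaximalSpectrum R, a ∈ m.asIdeal → m.asIdeal ≠ ⊥ := by
    intro m hm h
    rw [h, Ideal.mem_bot] at hm
    exact ha hm
  classical
  let f : {m : MaximalSpectrum R | a ∈ m.asIdeal} → {v : HeightOneSpectrum R | v.asIdeal ∣ Ideal.span {a}} :=
    fun m => ⟨⟨m.1.asIdeal, m.1.isMaximal.isPrime, hne m.1 m.2⟩, by
      show m.1.asIdeal ∣ Ideal.span {a}
      rw [Ideal.dvd_iff_le, Ideal.span_singleton_le_iff_mem]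
      exact m.2⟩
  have hf : Function.Injective f := by
    intro m m' h
    have h' : m.1.asIdeal = m'.1.asIdeal := by
      have := congrArg (fun v => v.1.asIdeal) h
      simpa [f] using this
    exact Subtype.ext (MaximalSpectrum.ext h')
  have : Finite {v : HeightOneSpectrum R | v.asIdeal ∣ Ideal.span {a}} := hfin.to_subtype
  exact Set.finite_coe_iff.mp (Finite.of_injective f hf)

variable {N : Type*} [AddCommGroup N] [Module R N] [Module.Projective R N]

/-- **Finiteness of zeros**: a nonzero element of a projective module over a Dedekind domain lies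
in `m • N` for only finitely many maximal ideals `m`. -/
theorem finite_zeros {x : N} (hx : x ≠ 0) :
    {m : MaximalSpectrum R | x ∈ (m.asIdeal • (⊤ : Submodule R N))}.Finite := by
  obtain ⟨φ, hφ⟩ := exists_dual_ne_zero (R := R) hx
  refine (finite_maximal_of_mem hφ).subset ?_
  intro m hm
  exact map_mem_of_mem_smul_top φ m.asIdeal hm

/-- Variant: given an infinite set of maximal ideals, some member does not contain `x` in
`m • N`. -/
theorem exists_not_mem_smul_top {x : N} (hx : x ≠ 0) {S : Set (MaximalSpectrum R)}
    (hS : S.Infinite) : ∃ m ∈ S, x ∉ (m.asIdeal • (⊤ : Submodule R N)) := by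
  by_contra h
  refine hS ((finite_zeros hx).subset fun m hm => ?_)
  by_contra hxm
  exact h ⟨m, hm, hxm⟩

end Dedekind

end Fermat.Agent.Jac.RiemannCover82.Zeros
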